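import Mathlib.RingTheory.Regular.ProjectiveDimension
import Mathlib.RingTheory.FiniteLength
import Mathlib.RingTheory.SimpleModule.Basic
import Mathlib.Algebra.Homology.ShortComplex.ModuleCat

set_option autoImplicit false

namespace Fermat.Agent.S57

open CategoryTheory IsLocalRing

lemma hasProjectiveDimensionLT_of_isFiniteLength {T : Type} [CommRing T] [IsLocalRing T] (n : ℕ)
    (hk : HasProjectiveDimensionLT (ModuleCat.of T (T ⧸ maximalIdeal T)) n)
    {L : Type} [AddCommGroup L] [Module T L] (hL : IsFiniteLength T L) :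
    HasProjectiveDimensionLT (ModuleCat.of T L) n := by
  induction hL with
  | @of_subsingleton L _ _ _ =>
    have := (ModuleCat.isZero_of_subsingleton (ModuleCat.of T L)).hasProjectiveDimensionLT_zero
    exact hasProjectiveDimensionLT_of_ge _ 0 n (Nat.zero_le n)
  | @of_simple_quotient L _ _ P hs _ ih =>
    obtain ⟨I, hI, ⟨e⟩⟩ := isSimpleModule_iff_quot_maximal.mp hs
    obtain rfl := IsLocalRing.eq_maximalIdeal hI
    have h3 : HasProjectiveDimensionLT (ModuleCat.of T (L ⧸ P)) n :=
      hasProjectiveDimensionLT_of_iso e.symm.toModuleIso n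
    have hS := LinearMap.shortExact_shortComplexKer (f := P.mkQ) (Submodule.mkQ_surjective P)
    have h1 : HasProjectiveDimensionLT (P.mkQ.shortComplexKer).X₁ n :=
      hasProjectiveDimensionLT_of_iso
        (LinearEquiv.ofEq P (LinearMap.ker P.mkQ) (Submodule.ker_mkQ P).symm).toModuleIso n
    exact hS.hasProjectiveDimensionLT_X₂ n h1 h3

end Fermat.Agent.S57
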