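import Fermat.Agent.S57.RegPar
import Fermat.Agent.S57.ProjDim
import Mathlib.RingTheory.Regular.Flat
import Mathlib.RingTheory.LocalRing.Module

set_option autoImplicit false

namespace Fermat.Agent.S57

open CategoryTheory IsLocalRing RingTheory.Sequence Pointwise

lemma isArtinian_of_semilinear_surjective {S T L' L : Type} [Ring S] [Ring T]
    [AddCommGroup L'] [AddCommGroup L] [Module S L'] [Module T L] {φ : S →+* T}
    (f : L' →ₛₗ[φ] L) (hf : Function.Surjective f) [IsArtinian S L'] : IsArtinian T L := by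
  have hmono : StrictMono (Submodule.comap f : Submodule T L → Submodule S L') := by
    intro A B hAB
    refine lt_of_le_of_ne (Submodule.comap_mono hAB.le) fun h => hAB.ne ?_
    ext x
    obtain ⟨y, rfl⟩ := hf x
    exact ⟨fun hy => (h ▸ (show y ∈ A.comap f from hy) : y ∈ B.comap f),
      fun hy => (h ▸ (show y ∈ B.comap f from hy) : y ∈ A.comap f)⟩
  exact hmono.wellFoundedLT

lemma isArtinian_quot_maximal_smul_top {S : Type} [CommRing S] (𝔪 : Ideal S) [h𝔪 : 𝔪.IsMaximal]
    (d : ℕ) : IsArtinian S ((Fin d → S) ⧸ (𝔪 • ⊤ : Submodule S (Fin d → S))) := by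
  let _ : Field (S ⧸ 𝔪) := Ideal.Quotient.field 𝔪
  have : Module.Finite (S ⧸ 𝔪) ((Fin d → S) ⧸ (𝔪 • ⊤ : Submodule S (Fin d → S))) :=
    Module.Finite.of_restrictScalars_finite S _ _
  have : IsArtinian (S ⧸ 𝔪) ((Fin d → S) ⧸ (𝔪 • ⊤ : Submodule S (Fin d → S))) := inferInstance
  exact isArtinian_of_surjective_algebraMap (R := S ⧸ 𝔪) Ideal.Quotient.mk_surjective

theorem free_of_semilinear_free {S T : Type} [CommRing S] [CommRing T] [IsLocalRing T]
    [IsNoetherianRing T] (φ : S →+* T) {N : Type} [AddCommGroup N] [Module T N] [Nontrivial N]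
    {d : ℕ} (b : Fin d → N)
    (hspan : ∀ x : N, ∃ c : Fin d → S, x = ∑ i, φ (c i) • b i)
    (hrel : ∀ c : Fin d → S, ∑ i, φ (c i) • b i = 0 → ∀ i, c i = 0)
    (n : ℕ) (hS : HasRegPar S n) (hT : HasRegPar T n)
    (hφ : ∀ x : S, ¬ IsUnit x → ¬ IsUnit (φ x)) :
    Module.Free T N := by
  obtain ⟨ys, hlen, hreg, hmax⟩ := hS
  obtain ⟨zs, hlen', hreg', hmax'⟩ := hT
  -- the semilinear parametrisation
  let g : (Fin d → S) →ₛₗ[φ] N :=
    { toFun := fun c => ∑ i, φ (c i) • b i
      map_add' := fun c c' => by simp [add_smul, Finset.sum_add_distrib]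
      map_smul' := fun a c => by simp [Finset.smul_sum, mul_smul] }
  have hg_surj : Function.Surjective g := fun x => by
    obtain ⟨c, hc⟩ := hspan x
    exact ⟨c, hc.symm⟩
  have hg_inj : Function.Injective g := by
    rw [injective_iff_map_eq_zero]
    intro c hc
    funext i
    exact hrel c hc i
  let ge : (Fin d → S) ≃+ N := AddEquiv.ofBijective g.toAddMonoidHom ⟨hg_inj, hg_surj⟩
  have h1 : IsWeaklyRegular (Fin d → S) ys :=
    ((TensorProduct.rid S (Fin d → S)).isWeaklyRegular_congr ys).mp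
      (hreg.isWeaklyRegular_lTensor (M₂ := Fin d → S))
  have h2 : IsWeaklyRegular N (ys.map φ) := by
    refine (AddEquiv.isWeaklyRegular_congr (e := ge) ?_).mp h1
    refine List.forall₂_map_right_iff.mpr (List.forall₂_same.mpr fun r _ x => ?_)
    exact g.map_smulₛₗ r x
  have hmem : ∀ r ∈ ys.map φ, r ∈ maximalIdeal T := by
    intro r hr
    obtain ⟨y, hy, rfl⟩ := List.mem_map.mp hr
    rw [mem_maximalIdeal, mem_nonunits_iff]
    refine hφ y fun hu => hmax.ne_top ?_
    exact Ideal.eq_top_of_isUnit_mem _ (Ideal.subset_span hy) hu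
  have hfin : Module.Finite T N := by
    classical
    refine ⟨⟨Finset.univ.image b, ?_⟩⟩
    rw [eq_top_iff]
    intro x _
    obtain ⟨c, rfl⟩ := hspan x
    refine Submodule.sum_mem _ fun i _ => Submodule.smul_mem _ _ (Submodule.subset_span ?_)
    simp
  -- finite length of the quotient
  have hArt : IsArtinian T (N ⧸ (Ideal.ofList (ys.map φ) • ⊤ : Submodule T N)) := by
    have := isArtinian_quot_maximal_smul_top (Ideal.ofList ys) d
    let f0 : (Fin d → S) →ₛₗ[φ] (N ⧸ (Ideal.ofList (ys.map φ) • ⊤ : Submodule T N)) :=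
      (Submodule.mkQ _).comp g
    have hker : (Ideal.ofList ys • ⊤ : Submodule S (Fin d → S)) ≤ LinearMap.ker f0 := by
      rw [Submodule.smul_le]
      intro a ha c _
      rw [LinearMap.mem_ker]
      change Submodule.mkQ _ (g (a • c)) = 0
      rw [g.map_smulₛₗ, Submodule.mkQ_apply, Submodule.Quotient.mk_eq_zero]
      refine Submodule.smul_mem_smul ?_ trivial
      rw [← Ideal.map_ofList]
      exact Ideal.mem_map_of_mem φ ha
    refine isArtinian_of_semilinear_surjective (Submodule.liftQ _ f0 hker) ?_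
    intro x
    obtain ⟨y, rfl⟩ := Submodule.mkQ_surjective _ x
    obtain ⟨c, rfl⟩ := hg_surj y
    exact ⟨Submodule.mkQ _ c, by simp [f0]⟩
  have hFL : IsFiniteLength T (N ⧸ (Ideal.ofList (ys.map φ) • ⊤ : Submodule T N)) :=
    isFiniteLength_iff_isNoetherian_isArtinian.mpr ⟨inferInstance, hArt⟩
  -- projective dimension of the residue field
  have hzs : Ideal.ofList zs = maximalIdeal T := IsLocalRing.eq_maximalIdeal hmax'
  have hk0 := ModuleCat.projectiveDimension_quotient_eq_length.{0} zs
    ⟨hreg', by simpa using hmax'.ne_top.symm⟩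
  have hk : HasProjectiveDimensionLT (ModuleCat.of T (T ⧸ maximalIdeal T)) (n + 1) := by
    rw [← projectiveDimension_lt_iff, ← hzs,
      ← projectiveDimension_eq_of_iso (Shrink.linearEquiv T (T ⧸ Ideal.ofList zs)).toModuleIso,
      hk0, hlen']
    exact_mod_cast Nat.lt_succ_self n
  have hq := hasProjectiveDimensionLT_of_isFiniteLength (n + 1) hk hFL
  have pdeq := ModuleCat.projectiveDimension_quotient_eq_add_length_of_isWeaklyRegular
    (ModuleCat.of T N) (ys.map φ) h2 hmem
  have hq' : projectiveDimension (ModuleCat.of T (N ⧸ (Ideal.ofList (ys.map φ) • ⊤ :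
      Submodule T N))) ≤ (n : ℕ) := (projectiveDimension_le_iff _ n).mpr hq
  have h0 : projectiveDimension (ModuleCat.of T N) ≤ (0 : ℕ) := by
    rw [← ENat.WithBot.add_le_add_natCast_right_iff (c := n)]
    have hl : (ys.map φ).length = n := by simpa using hlen
    rw [hl] at pdeq
    calc projectiveDimension (ModuleCat.of T N) + (n : ℕ) = _ := pdeq.symm
      _ ≤ (n : ℕ) := hq'
      _ = ((0 : ℕ) : WithBot ℕ∞) + (n : ℕ) := by simp
  have h3 : HasProjectiveDimensionLT (ModuleCat.of T N) 1 := (projectiveDimension_le_iff _ 0).mp h0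
  have h4 : Module.Projective T N :=
    (IsProjective.iff_projective N).mpr (projective_iff_hasProjectiveDimensionLT_one.mpr h3)
  exact Module.free_of_flat_of_isLocalRing

end Fermat.Agent.S57
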