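import Mathlib.RingTheory.MvPowerSeries.Equiv
import Mathlib.RingTheory.MvPowerSeries.Inverse
import Mathlib.RingTheory.PowerSeries.Inverse
import Mathlib.RingTheory.Regular.RegularSequence
import Mathlib.RingTheory.DiscreteValuationRing.Basic

set_option autoImplicit false

namespace Fermat.Agent.S57

open RingTheory.Sequence Pointwise

/-- Existence of a weakly regular sequence of length `n` generating a maximal ideal. -/
def HasRegPar (A : Type) [CommRing A] (n : ℕ) : Prop :=
  ∃ ys : List A, ys.length = n ∧ IsWeaklyRegular A ys ∧ (Ideal.ofList ys).IsMaximal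

lemma HasRegPar.of_ringEquiv {A B : Type} [CommRing A] [CommRing B] (e : A ≃+* B) {n : ℕ}
    (h : HasRegPar A n) : HasRegPar B n := by
  obtain ⟨ys, hlen, hreg, hmax⟩ := h
  refine ⟨ys.map e, by simpa using hlen, ?_, ?_⟩
  · refine (AddEquiv.isWeaklyRegular_congr (e := e.toAddEquiv) ?_).mp hreg
    refine List.forall₂_map_right_iff.mpr (List.forall₂_same.mpr fun r _ x => ?_)
    simp
  · have : Ideal.ofList (ys.map e) = Ideal.map (e : A →+* B) (Ideal.ofList ys) := by
      rw [Ideal.map_ofList]; rfl
    rw [this]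
    exact Ideal.map_isMaximal_of_equiv e

lemma HasRegPar.powerSeries {A : Type} [CommRing A] {n : ℕ}
    (h : HasRegPar A n) : HasRegPar (PowerSeries A) (n + 1) := by
  obtain ⟨ys, hlen, hreg, hmax⟩ := h
  refine ⟨PowerSeries.X :: ys.map (PowerSeries.C : A →+* PowerSeries A), by simpa using hlen,
    ?_, ?_⟩
  · rw [isWeaklyRegular_cons_iff]
    refine ⟨?_, ?_⟩
    · intro a b hab
      exact PowerSeries.X_mul_cancel (by simpa using hab)
    · let f : A →+ QuotSMulTop (PowerSeries.X : PowerSeries A) (PowerSeries A) :=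
        (Submodule.mkQ _).toAddMonoidHom.comp (PowerSeries.C : A →+* PowerSeries A).toAddMonoidHom
      have hf : Function.Bijective f := by
        constructor
        · rw [injective_iff_map_eq_zero]
          intro a ha
          have h1 : (PowerSeries.C a : PowerSeries A) ∈
              (PowerSeries.X : PowerSeries A) • (⊤ : Submodule (PowerSeries A) (PowerSeries A)) :=
            (Submodule.Quotient.mk_eq_zero _).mp ha
          obtain ⟨g, -, hg⟩ := (Submodule.mem_smul_pointwise_iff_exists _ _ _).mp h1
          have h2 : (PowerSeries.X : PowerSeries A) ∣ PowerSeries.C a := ⟨g, by simpa using hg.symm⟩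
          simpa using PowerSeries.X_dvd_iff.mp h2
        · intro x
          obtain ⟨g, rfl⟩ := Submodule.mkQ_surjective _ x
          refine ⟨PowerSeries.constantCoeff g, ?_⟩
          change Submodule.mkQ _ (PowerSeries.C (PowerSeries.constantCoeff g)) = Submodule.mkQ _ g
          rw [← sub_eq_zero, ← map_sub, Submodule.mkQ_apply, Submodule.Quotient.mk_eq_zero]
          have h2 : (PowerSeries.X : PowerSeries A) ∣
              PowerSeries.C (PowerSeries.constantCoeff g) - g := by
            rw [PowerSeries.X_dvd_iff]; simp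
          obtain ⟨k, hk⟩ := h2
          rw [hk]
          exact (Submodule.mem_smul_pointwise_iff_exists _ _ _).mpr ⟨k, trivial, rfl⟩
      refine (AddEquiv.isWeaklyRegular_congr (e := AddEquiv.ofBijective f hf) ?_).mp hreg
      refine List.forall₂_map_right_iff.mpr (List.forall₂_same.mpr fun r _ x => ?_)
      change Submodule.mkQ _ (PowerSeries.C (r • x)) =
        (PowerSeries.C r : PowerSeries A) • Submodule.mkQ _ (PowerSeries.C x)
      rw [← map_smul]
      simp
  · have : Ideal.ofList (PowerSeries.X :: ys.map (PowerSeries.C : A →+* PowerSeries A)) =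
        Ideal.comap (PowerSeries.constantCoeff : PowerSeries A →+* A) (Ideal.ofList ys) := by
      rw [Ideal.ofList_cons, ← Ideal.map_ofList]
      apply le_antisymm
      · rw [sup_le_iff, Ideal.span_singleton_le_iff_mem, Ideal.map_le_iff_le_comap]
        refine ⟨by simp, fun y hy => by simpa using hy⟩
      · intro g hg
        rw [PowerSeries.eq_X_mul_shift_add_const g]
        refine Ideal.add_mem _ ?_ ?_
        · exact Ideal.mul_mem_right _ _ (Ideal.mem_sup_left (Ideal.mem_span_singleton_self _))
        · exact Ideal.mem_sup_right (Ideal.mem_map_of_mem _ hg)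
    rw [this]
    exact Ideal.comap_isMaximal_of_surjective _ PowerSeries.constantCoeff_surj

lemma hasRegPar_dvr (𝒪 : Type) [CommRing 𝒪] [IsDomain 𝒪] [IsDiscreteValuationRing 𝒪] :
    HasRegPar 𝒪 1 := by
  obtain ⟨ϖ, hϖ⟩ := IsDiscreteValuationRing.exists_irreducible 𝒪
  refine ⟨[ϖ], rfl, ?_, ?_⟩
  · rw [isWeaklyRegular_singleton_iff]
    exact IsSMulRegular.of_ne_zero hϖ.ne_zero
  · rw [Ideal.ofList_singleton, ← hϖ.maximalIdeal_eq]
    infer_instance

lemma hasRegPar_mvPowerSeries (𝒪 : Type) [CommRing 𝒪] [IsDomain 𝒪] [IsDiscreteValuationRing 𝒪]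
    (r : ℕ) : HasRegPar (MvPowerSeries (Fin r) 𝒪) (r + 1) := by
  induction r with
  | zero => exact (hasRegPar_dvr 𝒪).of_ringEquiv (MvPowerSeries.isEmptyEquiv (Fin 0) 𝒪).toRingEquiv.symm
  | succ r ih => exact ih.powerSeries.of_ringEquiv (MvPowerSeries.finSuccEquiv 𝒪 r).toRingEquiv.symm

end Fermat.Agent.S57
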